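import Mathlib

/-!
# S16 / WP ALG (helper728): the abstract Hecke-duality argument

Pure algebra (Mathlib only).  `T` is a commutative ring acting faithfully on a lattice `L`, generated
by the images of the variables of `ℤ[X_ℓ]`, with "`q`-coefficient" functionals `coef n : L → ℤ`
satisfying the Hecke recursion.  If the pairing data satisfy (LB') and (UB'), then
`T ⧸ (image of the eigen-ideal)` has exactly `n` elements.
-/

set_option autoImplicit false

namespace Fermat.Agent.S16.H728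

open Module

noncomputable section

/-- Abstract Hecke data: a commutative ring `T` acting faithfully on `L`, a surjection
`φ : ℤ[X_ℓ] → T`, coefficient functionals and the Hecke recursion with weights `w`. -/
structure HeckeData (T : Type*) [CommRing T] (L : Type*) [AddCommGroup L] where
  /-- the action -/
  ι : T →+* Module.End ℤ L
  ι_inj : Function.Injective ι
  /-- the presentation -/
  φ : MvPolynomial Nat.Primes ℤ →+* T
  φ_surj : Function.Surjective φ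
  /-- coefficient functionals -/
  coef : ℕ → L →ₗ[ℤ] ℤ
  /-- weights of the recursion -/
  w : Nat.Primes → ℤ
  coef_gen : ∀ (ℓ : Nat.Primes) (f : L) (n : ℕ),
    coef n (ι (φ (MvPolynomial.X ℓ)) f) =
      coef (n * ℓ) f + (if (ℓ : ℕ) ∣ n then w ℓ * coef (n / ℓ) f else 0)
  eq_zero : ∀ f : L, (∀ n, 1 ≤ n → coef n f = 0) → f = 0
  sat : ∀ (d : ℕ) (f : L), 1 ≤ d → (∀ n, 1 ≤ n → (d : ℤ) ∣ coef n f) → ∃ g : L, f = (d : ℤ) • g

namespace HeckeData

variable {T : Type*} [CommRing T] {L : Type*} [AddCommGroup L] (D : HeckeData T L)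
variable (ev : MvPolynomial Nat.Primes ℤ →+* ℤ)

/-- the image in `T` of the kernel of `ev`. -/
def J : Ideal T := Ideal.map D.φ (RingHom.ker ev)

lemma phi_sub_mem (P : MvPolynomial Nat.Primes ℤ) : D.φ P - ((ev P : ℤ) : T) ∈ D.J ev := by
  have h : P - ((ev P : ℤ) : MvPolynomial Nat.Primes ℤ) ∈ RingHom.ker ev := by
    rw [RingHom.mem_ker, map_sub, map_intCast, Int.cast_id, sub_self]
  have h2 := Ideal.mem_map_of_mem D.φ h
  rwa [map_sub, map_intCast] at h2

lemma ι_intCast_apply (a : ℤ) (f : L) : D.ι ((a : ℤ) : T) f = a • f := by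
  rw [map_intCast, ← zsmul_one, LinearMap.smul_apply, Module.End.one_apply]

lemma ι_mul_apply (s t : T) (f : L) : D.ι (s * t) f = D.ι s (D.ι t f) := by
  rw [map_mul, Module.End.mul_apply]

/-- The elements `t_k` with `a_k(f) = a_1(t_k f)` and `t_k ≡ σ(k)` modulo `J`. -/
theorem exists_t (eis : Nat.Primes → ℤ) (hev : ∀ ℓ, ev (MvPolynomial.X ℓ) = eis ℓ)
    (σ : ℕ → ℤ) (hσ1 : σ 1 = 1)
    (hσ : ∀ (ℓ : Nat.Primes) (n : ℕ), 1 ≤ n →
      σ (n * ℓ) + (if (ℓ : ℕ) ∣ n then D.w ℓ * σ (n / ℓ) else 0) = eis ℓ * σ n) :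
    ∀ k : ℕ, 1 ≤ k → ∃ t : T, (∀ f : L, D.coef k f = D.coef 1 (D.ι t f)) ∧
      t - ((σ k : ℤ) : T) ∈ D.J ev := by
  intro k
  induction k using Nat.strong_induction_on with
  | _ k ih =>
    intro hk
    rcases Nat.eq_or_lt_of_le hk with h1 | h1
    · subst h1
      refine ⟨1, fun f => by rw [map_one, Module.End.one_apply], ?_⟩
      rw [hσ1, Int.cast_one, sub_self]
      exact Ideal.zero_mem _
    · -- `k ≥ 2`
      have hk1 : k ≠ 1 := by omega
      set ℓ : Nat.Primes := ⟨k.minFac, Nat.minFac_prime hk1⟩ with hℓ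
      have hℓk : (ℓ : ℕ) ∣ k := Nat.minFac_dvd k
      have hℓ2 : 2 ≤ (ℓ : ℕ) := ℓ.2.two_le
      obtain ⟨k', hk'⟩ : ∃ k', k = k' * ℓ := ⟨k / ℓ, (Nat.div_mul_cancel hℓk).symm⟩
      have hk'pos : 1 ≤ k' := by
        rcases Nat.eq_zero_or_pos k' with h0 | h0
        · rw [h0, zero_mul] at hk'; omega
        · exact h0
      have hk'lt : k' < k := by
        rw [hk']
        exact lt_mul_of_one_lt_right (by omega) (by omega)
      obtain ⟨t', ht', ht'J⟩ := ih k' hk'lt hk'pos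
      have hXJ : D.φ (MvPolynomial.X ℓ) - ((eis ℓ : ℤ) : T) ∈ D.J ev := by
        have := D.phi_sub_mem ev (MvPolynomial.X ℓ)
        rwa [hev] at this
      by_cases hdiv : (ℓ : ℕ) ∣ k'
      · obtain ⟨k'', hk''⟩ : ∃ k'', k' = k'' * ℓ := ⟨k' / ℓ, (Nat.div_mul_cancel hdiv).symm⟩
        have hk''pos : 1 ≤ k'' := by
          rcases Nat.eq_zero_or_pos k'' with h0 | h0
          · rw [h0, zero_mul] at hk''; omega
          · exact h0
        have hk''lt : k'' < k := by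
          have h3 : k'' < k' := by
            rw [hk'']
            exact lt_mul_of_one_lt_right (by omega) (by omega)
          omega
        have hdivk : k' / (ℓ : ℕ) = k'' := by
          rw [hk'']; exact Nat.mul_div_cancel _ (by omega)
        obtain ⟨t'', ht'', ht''J⟩ := ih k'' hk''lt hk''pos
        refine ⟨t' * D.φ (MvPolynomial.X ℓ) - ((D.w ℓ : ℤ) : T) * t'', fun f => ?_, ?_⟩
        · rw [map_sub, LinearMap.sub_apply, map_sub, D.ι_mul_apply, D.ι_mul_apply,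
            D.ι_intCast_apply, map_smul, smul_eq_mul, ← ht', ← ht'', D.coef_gen, if_pos hdiv,
            hdivk, ← hk']
          ring
        · have hrec := hσ ℓ k' hk'pos
          rw [if_pos hdiv, hdivk, ← hk'] at hrec
          have hσk : σ k = eis ℓ * σ k' - D.w ℓ * σ k'' := by linarith
          have e : t' * D.φ (MvPolynomial.X ℓ) - ((D.w ℓ : ℤ) : T) * t'' - ((σ k : ℤ) : T)
              = (t' - ((σ k' : ℤ) : T)) * D.φ (MvPolynomial.X ℓ)
                + ((σ k' : ℤ) : T) * (D.φ (MvPolynomial.X ℓ) - ((eis ℓ : ℤ) : T))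
                - ((D.w ℓ : ℤ) : T) * (t'' - ((σ k'' : ℤ) : T)) := by
            rw [hσk]; push_cast; ring
          rw [e]
          exact Ideal.sub_mem _ (Ideal.add_mem _ (Ideal.mul_mem_right _ _ ht'J)
            (Ideal.mul_mem_left _ _ hXJ)) (Ideal.mul_mem_left _ _ ht''J)
      · refine ⟨t' * D.φ (MvPolynomial.X ℓ), fun f => ?_, ?_⟩
        · rw [D.ι_mul_apply, ← ht', D.coef_gen, if_neg hdiv, add_zero, ← hk']
        · have hrec := hσ ℓ k' hk'pos
          rw [if_neg hdiv, add_zero, ← hk'] at hrec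
          have e : t' * D.φ (MvPolynomial.X ℓ) - ((σ k : ℤ) : T)
              = (t' - ((σ k' : ℤ) : T)) * D.φ (MvPolynomial.X ℓ)
                + ((σ k' : ℤ) : T) * (D.φ (MvPolynomial.X ℓ) - ((eis ℓ : ℤ) : T)) := by
            rw [hrec]; push_cast; ring
          rw [e]
          exact Ideal.add_mem _ (Ideal.mul_mem_right _ _ ht'J) (Ideal.mul_mem_left _ _ hXJ)


/-! ### The lower bound direction -/

/-- the submodule `n L` -/
def nL (n : ℕ) : Submodule ℤ L := LinearMap.range ((n : ℤ) • (LinearMap.id : L →ₗ[ℤ] L))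

lemma mem_nL {n : ℕ} {x : L} : x ∈ nL (L := L) n ↔ ∃ g : L, x = (n : ℤ) • g := by
  unfold nL
  rw [LinearMap.mem_range]
  constructor
  · rintro ⟨g, hg⟩
    exact ⟨g, by rw [← hg]; rfl⟩
  · rintro ⟨g, hg⟩
    exact ⟨g, by rw [hg]; rfl⟩

include D in
lemma ι_mem_nL {n : ℕ} (t : T) {x : L} (hx : x ∈ nL (L := L) n) : D.ι t x ∈ nL (L := L) n := by
  obtain ⟨g, rfl⟩ := mem_nL.mp hx
  exact mem_nL.mpr ⟨D.ι t g, by rw [map_smul]⟩

/-- `h` is Eisenstein modulo `n`. -/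
theorem gen_sub_mem_nL (eis : Nat.Primes → ℤ) (σ : ℕ → ℤ)
    (hσ : ∀ (ℓ : Nat.Primes) (n : ℕ), 1 ≤ n →
      σ (n * ℓ) + (if (ℓ : ℕ) ∣ n then D.w ℓ * σ (n / ℓ) else 0) = eis ℓ * σ n)
    (n : ℕ) (hn : 1 ≤ n) (h : L) (c : ℤ)
    (hh : ∀ k, 1 ≤ k → (n : ℤ) ∣ D.coef k h - c * σ k) (ℓ : Nat.Primes) :
    D.ι (D.φ (MvPolynomial.X ℓ)) h - eis ℓ • h ∈ nL (L := L) n := by
  refine mem_nL.mpr (D.sat n _ hn fun k hk => ?_)
  have hℓpos : 1 ≤ (ℓ : ℕ) := ℓ.2.one_lt.le
  rw [map_sub, map_smul, smul_eq_mul, D.coef_gen]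
  have hrec := hσ ℓ k hk
  obtain ⟨u1, hu1⟩ := hh (k * ℓ) (Nat.mul_pos hk hℓpos)
  obtain ⟨u2, hu2⟩ := hh k hk
  by_cases hdiv : (ℓ : ℕ) ∣ k
  · have hpos : 1 ≤ k / (ℓ : ℕ) := Nat.div_pos (Nat.le_of_dvd hk hdiv) ℓ.2.pos
    obtain ⟨u3, hu3⟩ := hh (k / ℓ) hpos
    rw [if_pos hdiv] at hrec ⊢
    refine ⟨u1 + D.w ℓ * u3 - eis ℓ * u2, ?_⟩
    have e1 : D.coef (k * ℓ) h = c * σ (k * ℓ) + n * u1 := by linarith
    have e2 : D.coef k h = c * σ k + n * u2 := by linarith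
    have e3 : D.coef (k / ℓ) h = c * σ (k / ℓ) + n * u3 := by linarith
    rw [e1, e2, e3]
    linear_combination c * hrec
  · rw [if_neg hdiv] at hrec ⊢
    refine ⟨u1 - eis ℓ * u2, ?_⟩
    have e1 : D.coef (k * ℓ) h = c * σ (k * ℓ) + n * u1 := by linarith
    have e2 : D.coef k h = c * σ k + n * u2 := by linarith
    rw [e1, e2]
    linear_combination c * hrec

theorem phi_apply_sub_mem_nL (eis : Nat.Primes → ℤ) (hev : ∀ ℓ, ev (MvPolynomial.X ℓ) = eis ℓ)
    (n : ℕ) (h : L)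
    (hgen : ∀ ℓ : Nat.Primes, D.ι (D.φ (MvPolynomial.X ℓ)) h - eis ℓ • h ∈ nL (L := L) n)
    (P : MvPolynomial Nat.Primes ℤ) :
    D.ι (D.φ P) h - ev P • h ∈ nL (L := L) n := by
  induction P using MvPolynomial.induction_on with
  | C a =>
    have e : (MvPolynomial.C a : MvPolynomial Nat.Primes ℤ) = ((a : ℤ) : MvPolynomial Nat.Primes ℤ) :=
      eq_intCast (MvPolynomial.C : ℤ →+* MvPolynomial Nat.Primes ℤ) a
    rw [e, map_intCast D.φ, D.ι_intCast_apply, map_intCast ev, Int.cast_id, sub_self]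
    exact Submodule.zero_mem _
  | add P Q hP hQ =>
    have e : D.ι (D.φ (P + Q)) h - ev (P + Q) • h
        = (D.ι (D.φ P) h - ev P • h) + (D.ι (D.φ Q) h - ev Q • h) := by
      rw [map_add, map_add, map_add, LinearMap.add_apply, add_smul]
      abel
    rw [e]
    exact Submodule.add_mem _ hP hQ
  | mul_X P ℓ hP =>
    have e : D.ι (D.φ (P * MvPolynomial.X ℓ)) h - ev (P * MvPolynomial.X ℓ) • h
        = D.ι (D.φ P) (D.ι (D.φ (MvPolynomial.X ℓ)) h - eis ℓ • h)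
          + eis ℓ • (D.ι (D.φ P) h - ev P • h) := by
      rw [map_mul D.φ, D.ι_mul_apply, map_mul ev, hev, map_sub, map_smul, smul_sub, smul_smul,
        mul_comm]
      abel
    rw [e]
    exact Submodule.add_mem _ (D.ι_mem_nL _ (hgen ℓ)) (Submodule.smul_mem _ _ hP)

/-- elements of `J` map `h` into `n L`. -/
theorem apply_mem_nL_of_mem_J (eis : Nat.Primes → ℤ) (hev : ∀ ℓ, ev (MvPolynomial.X ℓ) = eis ℓ)
    (n : ℕ) (h : L)
    (hgen : ∀ ℓ : Nat.Primes, D.ι (D.φ (MvPolynomial.X ℓ)) h - eis ℓ • h ∈ nL (L := L) n)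
    {t : T} (ht : t ∈ D.J ev) : D.ι t h ∈ nL (L := L) n := by
  let N' : Ideal T :=
    { carrier := {t | D.ι t h ∈ nL (L := L) n}
      add_mem' := fun {a b} ha hb => by
        show D.ι (a + b) h ∈ nL (L := L) n
        rw [map_add, LinearMap.add_apply]
        exact Submodule.add_mem _ ha hb
      zero_mem' := by
        show D.ι 0 h ∈ nL (L := L) n
        rw [map_zero, LinearMap.zero_apply]
        exact Submodule.zero_mem _
      smul_mem' := fun c x hx => by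
        show D.ι (c • x) h ∈ nL (L := L) n
        rw [smul_eq_mul, D.ι_mul_apply]
        exact D.ι_mem_nL _ hx }
  have hle : D.J ev ≤ N' := by
    unfold J
    rw [Ideal.map_le_iff_le_comap]
    intro P hP
    rw [RingHom.mem_ker] at hP
    have := D.phi_apply_sub_mem_nL ev eis hev n h hgen P
    rw [hP, zero_smul, sub_zero] at this
    exact this
  exact hle ht

/-- **Lower bound**: an integer lying in `J` is divisible by `n`. -/
theorem dvd_of_intCast_mem_J (eis : Nat.Primes → ℤ) (hev : ∀ ℓ, ev (MvPolynomial.X ℓ) = eis ℓ)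
    (σ : ℕ → ℤ) (hσ1 : σ 1 = 1)
    (hσ : ∀ (ℓ : Nat.Primes) (n : ℕ), 1 ≤ n →
      σ (n * ℓ) + (if (ℓ : ℕ) ∣ n then D.w ℓ * σ (n / ℓ) else 0) = eis ℓ * σ n)
    (n : ℕ) (hn : 1 ≤ n) (h : L) (c : ℤ) (hc : IsCoprime c (n : ℤ))
    (hh : ∀ k, 1 ≤ k → (n : ℤ) ∣ D.coef k h - c * σ k)
    (a : ℤ) (ha : ((a : ℤ) : T) ∈ D.J ev) : (n : ℤ) ∣ a := by
  have hgen := D.gen_sub_mem_nL eis σ hσ n hn h c hh
  have h1 := D.apply_mem_nL_of_mem_J ev eis hev n h hgen ha
  rw [D.ι_intCast_apply] at h1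
  obtain ⟨g, hg⟩ := mem_nL.mp h1
  have h2 : a * D.coef 1 h = n * D.coef 1 g := by
    have := congrArg (D.coef 1) hg
    rwa [map_smul, map_smul, smul_eq_mul, smul_eq_mul] at this
  obtain ⟨u, hu⟩ := hh 1 le_rfl
  rw [hσ1, mul_one] at hu
  have h3 : (n : ℤ) ∣ a * c := ⟨D.coef 1 g - a * u, by linear_combination h2 - a * hu⟩
  exact hc.symm.dvd_of_dvd_mul_right h3


/-! ### Duality -/

section Duality

/-- the pairing `L → Hom(T, ℤ)`, `f ↦ (t ↦ a₁(t f))`. -/
def pairing : L →ₗ[ℤ] (T →ₗ[ℤ] ℤ) :=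
  LinearMap.mk₂ ℤ (fun f t => D.coef 1 (D.ι t f))
    (fun f g t => by rw [map_add, map_add])
    (fun c f t => by rw [map_smul, map_smul])
    (fun f s t => by rw [map_add, LinearMap.add_apply, map_add])
    (fun c f t => by rw [map_zsmul, LinearMap.smul_apply, map_smul])

@[simp] lemma pairing_apply (f : L) (t : T) : D.pairing f t = D.coef 1 (D.ι t f) := rfl

lemma pairing_injective
    (hT : ∀ k, 1 ≤ k → ∃ t : T, ∀ f : L, D.coef k f = D.coef 1 (D.ι t f)) :
    Function.Injective D.pairing := by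
  rw [injective_iff_map_eq_zero]
  intro f hf
  apply D.eq_zero
  intro k hk
  obtain ⟨t, ht⟩ := hT k hk
  rw [ht f]
  exact LinearMap.congr_fun hf t

lemma pairing_flip_injective
    (hT : ∀ k, 1 ≤ k → ∃ t : T, ∀ f : L, D.coef k f = D.coef 1 (D.ι t f)) :
    Function.Injective D.pairing.flip := by
  rw [injective_iff_map_eq_zero]
  intro t ht
  apply D.ι_inj
  rw [map_zero]
  ext f
  rw [LinearMap.zero_apply]
  apply D.eq_zero
  intro k hk
  obtain ⟨tk, htk⟩ := hT k hk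
  rw [htk, ← D.ι_mul_apply, mul_comm, D.ι_mul_apply]
  exact LinearMap.congr_fun ht (D.ι tk f)

variable [Module.Free ℤ L] [Module.Finite ℤ L] [Module.Free ℤ T] [Module.Finite ℤ T]

lemma finrank_eq
    (hT : ∀ k, 1 ≤ k → ∃ t : T, ∀ f : L, D.coef k f = D.coef 1 (D.ι t f)) :
    finrank ℤ L = finrank ℤ T := by
  have h1 : finrank ℤ L ≤ finrank ℤ (T →ₗ[ℤ] ℤ) :=
    LinearMap.finrank_le_finrank_of_injective (D.pairing_injective hT)
  have h2 : finrank ℤ T ≤ finrank ℤ (L →ₗ[ℤ] ℤ) :=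
    LinearMap.finrank_le_finrank_of_injective (D.pairing_flip_injective hT)
  rw [finrank_linearMap, finrank_self, mul_one] at h1 h2
  omega

omit [Module.Free ℤ L] [Module.Finite ℤ L] [Module.Free ℤ T] [Module.Finite ℤ T] in
lemma pairing_range_saturated
    (hT : ∀ k, 1 ≤ k → ∃ t : T, ∀ f : L, D.coef k f = D.coef 1 (D.ι t f))
    (d : ℤ) (hd : d ≠ 0) (ξ : T →ₗ[ℤ] ℤ) (h : d • ξ ∈ LinearMap.range D.pairing) :
    ξ ∈ LinearMap.range D.pairing := by
  obtain ⟨f, hf⟩ := h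
  have hdn : 1 ≤ d.natAbs := Int.natAbs_pos.mpr hd
  have hdiv : ∀ k, 1 ≤ k → ((d.natAbs : ℕ) : ℤ) ∣ D.coef k f := by
    intro k hk
    obtain ⟨t, ht⟩ := hT k hk
    rw [ht f, Int.natAbs_dvd]
    have : D.pairing f t = (d • ξ) t := LinearMap.congr_fun hf t
    rw [pairing_apply] at this
    rw [this, LinearMap.smul_apply, smul_eq_mul]
    exact Dvd.intro _ rfl
  obtain ⟨g, hg⟩ := D.sat d.natAbs f hdn hdiv
  rcases Int.natAbs_eq d with hd' | hd'
  · refine ⟨g, LinearMap.ext fun t => ?_⟩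
    have h1 : D.pairing f t = (d • ξ) t := LinearMap.congr_fun hf t
    rw [hg, ← hd', map_smul, LinearMap.smul_apply, LinearMap.smul_apply, smul_eq_mul,
      smul_eq_mul] at h1
    exact mul_left_cancel₀ hd h1
  · refine ⟨-g, LinearMap.ext fun t => ?_⟩
    have h1 : D.pairing f t = (d • ξ) t := LinearMap.congr_fun hf t
    have hg' : f = (-d) • g := by rw [hg]; congr 1; omega
    rw [hg', map_smul, LinearMap.smul_apply, LinearMap.smul_apply, smul_eq_mul,
      smul_eq_mul] at h1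
    rw [map_neg, LinearMap.neg_apply]
    have h2 : d * (-(D.pairing g t)) = d * ξ t := by linarith
    exact mul_left_cancel₀ hd h2

/-- **Perfectness** of the pairing: every functional on `T` is `t ↦ a₁(t f)`. -/
theorem pairing_surjective
    (hT : ∀ k, 1 ≤ k → ∃ t : T, ∀ f : L, D.coef k f = D.coef 1 (D.ι t f)) :
    Function.Surjective D.pairing := by
  set R := LinearMap.range D.pairing with hR
  have : Module.IsTorsionFree ℤ ((T →ₗ[ℤ] ℤ) ⧸ R) := by
    refine ⟨fun d hd => ?_⟩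
    have hd0 : d ≠ 0 := hd.ne_zero
    intro x y hxy
    obtain ⟨ξ, rfl⟩ := Submodule.Quotient.mk_surjective _ x
    obtain ⟨η, rfl⟩ := Submodule.Quotient.mk_surjective _ y
    have h1 : Submodule.Quotient.mk (p := R) (d • ξ) = Submodule.Quotient.mk (d • η) := hxy
    rw [Submodule.Quotient.eq] at h1 ⊢
    rw [← smul_sub] at h1
    exact D.pairing_range_saturated hT d hd0 _ h1
  have hfin : finrank ℤ ((T →ₗ[ℤ] ℤ) ⧸ R) = 0 := by
    have h1 := Submodule.finrank_quotient_add_finrank R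
    have hrank : finrank ℤ ↥R = finrank ℤ T := by
      rw [hR, LinearMap.finrank_range_of_inj (D.pairing_injective hT), D.finrank_eq hT]
    have htot : finrank ℤ (T →ₗ[ℤ] ℤ) = finrank ℤ T := by
      rw [finrank_linearMap, finrank_self, mul_one]
    rw [hrank, htot] at h1
    omega
  have hsub : Subsingleton ((T →ₗ[ℤ] ℤ) ⧸ R) := Module.finrank_zero_iff.mp hfin
  have htop : R = ⊤ := Submodule.Quotient.subsingleton_iff.mp hsub
  exact LinearMap.range_eq_top.mp htop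

end Duality

/-! ### The main abstract theorem -/

section Main

variable [Module.Free ℤ L] [Module.Finite ℤ L] [Module.Free ℤ T] [Module.Finite ℤ T]

/-- **Abstract form of `|T / J| = n`.** -/
theorem card_quotient (eis : Nat.Primes → ℤ) (hev : ∀ ℓ, ev (MvPolynomial.X ℓ) = eis ℓ)
    (σ : ℕ → ℤ) (hσ1 : σ 1 = 1)
    (hσ : ∀ (ℓ : Nat.Primes) (n : ℕ), 1 ≤ n →
      σ (n * ℓ) + (if (ℓ : ℕ) ∣ n then D.w ℓ * σ (n / ℓ) else 0) = eis ℓ * σ n)
    (n : ℕ) (hn : 1 ≤ n)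
    (hLB : ∃ h : L, ∃ c : ℤ, IsCoprime c (n : ℤ) ∧ ∀ k, 1 ≤ k → (n : ℤ) ∣ D.coef k h - c * σ k)
    (hUB : ∀ m : ℕ, (∃ f : L, ∀ k, 1 ≤ k → (m : ℤ) ∣ D.coef k f - σ k) → m ∣ n) :
    Nat.card (T ⧸ D.J ev) = n := by
  have hT := D.exists_t ev eis hev σ hσ1 hσ
  have hT' : ∀ k, 1 ≤ k → ∃ t : T, ∀ f : L, D.coef k f = D.coef 1 (D.ι t f) :=
    fun k hk => (hT k hk).imp fun t ht => ht.1
  -- `ℤ → T ⧸ J` is onto
  have hmk : ∀ a : ℤ, ((a : ℤ) : T ⧸ D.J ev) = Ideal.Quotient.mk (D.J ev) ((a : ℤ) : T) :=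
    fun a => (map_intCast (Ideal.Quotient.mk (D.J ev)) a).symm
  have hqsurj : Function.Surjective (Int.castRingHom (T ⧸ D.J ev)) := by
    intro x
    obtain ⟨t, rfl⟩ := Ideal.Quotient.mk_surjective x
    obtain ⟨P, rfl⟩ := D.φ_surj t
    refine ⟨ev P, ?_⟩
    rw [eq_intCast, hmk]
    exact (Ideal.Quotient.eq.mpr (D.phi_sub_mem ev P)).symm
  -- its kernel is principal
  obtain ⟨m, hm⟩ : ∃ m : ℕ, RingHom.ker (Int.castRingHom (T ⧸ D.J ev)) = Ideal.span {(m : ℤ)} := by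
    obtain ⟨g, hg⟩ := (IsPrincipalIdealRing.principal
      (RingHom.ker (Int.castRingHom (T ⧸ D.J ev)))).principal
    refine ⟨g.natAbs, ?_⟩
    rw [hg, Int.span_natAbs]
  have hmemK : ∀ a : ℤ, ((a : ℤ) : T) ∈ D.J ev ↔ (m : ℤ) ∣ a := by
    intro a
    rw [← Ideal.mem_span_singleton, ← hm, RingHom.mem_ker, eq_intCast, hmk,
      Ideal.Quotient.eq_zero_iff_mem]
  -- lower bound
  have h1 : (n : ℤ) ∣ m := by
    obtain ⟨h, c, hc, hh⟩ := hLB
    exact D.dvd_of_intCast_mem_J ev eis hev σ hσ1 hσ n hn h c hc hh m ((hmemK m).mpr dvd_rfl)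
  -- upper bound
  have h2 : m ∣ n := by
    apply hUB
    have hsurj' : Function.Surjective (Algebra.linearMap ℤ (T ⧸ D.J ev)) := by
      intro x
      obtain ⟨a, ha⟩ := hqsurj x
      exact ⟨a, by rw [Algebra.linearMap_apply, ← ha]; rfl⟩
    obtain ⟨ψ, hψ⟩ := Module.projective_lifting_property (Algebra.linearMap ℤ (T ⧸ D.J ev))
      ((Ideal.Quotient.mkₐ ℤ (D.J ev)).toLinearMap) hsurj'
    obtain ⟨f, hf⟩ := D.pairing_surjective hT' ψ
    refine ⟨f, fun k hk => ?_⟩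
    obtain ⟨t, ht1, ht2⟩ := hT k hk
    have h3 : D.coef 1 (D.ι t f) = ψ t := LinearMap.congr_fun hf t
    rw [ht1 f, h3, ← hmemK]
    have h4 : Ideal.Quotient.mk (D.J ev) (((ψ t : ℤ) : T)) = Ideal.Quotient.mk (D.J ev) t := by
      have := LinearMap.congr_fun hψ t
      rw [LinearMap.comp_apply, Algebra.linearMap_apply] at this
      rw [← hmk]
      rw [eq_intCast (algebraMap ℤ (T ⧸ D.J ev))] at this
      exact this
    have h5 : ((ψ t : ℤ) : T) - t ∈ D.J ev := Ideal.Quotient.eq.mp h4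
    have e : (((ψ t - σ k : ℤ)) : T) = (((ψ t : ℤ) : T) - t) + (t - ((σ k : ℤ) : T)) := by
      push_cast; ring
    rw [e]
    exact Ideal.add_mem _ h5 ht2
  have hmn : m = n := Nat.dvd_antisymm h2 (Int.natCast_dvd_natCast.mp h1)
  rw [← hmn]
  calc Nat.card (T ⧸ D.J ev)
      = Nat.card (ℤ ⧸ RingHom.ker (Int.castRingHom (T ⧸ D.J ev))) :=
        Nat.card_congr (RingHom.quotientKerEquivOfSurjective hqsurj).symm.toEquiv
    _ = Nat.card (ℤ ⧸ Ideal.span {(m : ℤ)}) := by rw [hm]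
    _ = Nat.card (ZMod m) := Nat.card_congr (Int.quotientSpanNatEquivZMod m).toEquiv
    _ = m := Nat.card_zmod m

end Main

end HeckeData

end

end Fermat.Agent.S16.H728
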