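import Mathlib
import Fermat.Prelude.Def_CuspForm_IntegralStructure
import Fermat.Prelude.Thm_CuspForm_intLattice_fg
import Fermat.Prelude.Thm_CongruenceSubgroup_one_mem_strictPeriods_Gamma0

/-!
# S16 / WP ALG (helper728): integral coefficient functionals on `CuspForm.intLattice N k`
-/

set_option autoImplicit false

namespace Fermat.Agent.S16.H728

open UpperHalfPlane ModularFormClass CongruenceSubgroup

noncomputable section

variable {N : ℕ} {k : ℤ}

lemma mem_intLattice_iff' (f : CuspForm (Gamma0 N) k) :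
    f ∈ CuspForm.intLattice N k ↔ ∀ n : ℕ, ∃ m : ℤ, qCoeff f n = (m : ℂ) :=
  P2MW.S_CuspForm_intLattice_fg.W3WsD.mem_intLattice_iff f

lemma exists_int_qCoeff (f : CuspForm.intLattice N k) (n : ℕ) :
    ∃ m : ℤ, qCoeff (f : CuspForm (Gamma0 N) k) n = (m : ℂ) :=
  (mem_intLattice_iff' f.1).mp f.2 n

/-- the `n`-th `q`-coefficient of an element of the integral lattice, as an integer -/
def coefFun (f : CuspForm.intLattice N k) (n : ℕ) : ℤ := (exists_int_qCoeff f n).choose

lemma coefFun_spec (f : CuspForm.intLattice N k) (n : ℕ) :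
    qCoeff (f : CuspForm (Gamma0 N) k) n = (coefFun f n : ℂ) :=
  (exists_int_qCoeff f n).choose_spec

lemma coefFun_eq_of (f : CuspForm.intLattice N k) (n : ℕ) (m : ℤ)
    (h : qCoeff (f : CuspForm (Gamma0 N) k) n = (m : ℂ)) : coefFun f n = m := by
  have := coefFun_spec f n
  rw [h] at this
  exact_mod_cast this.symm

/-- the `n`-th coefficient functional -/
def coefLin (N : ℕ) (k : ℤ) (n : ℕ) : CuspForm.intLattice N k →ₗ[ℤ] ℤ where
  toFun f := coefFun f n
  map_add' f g := by
    apply coefFun_eq_of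
    rw [Submodule.coe_add, P2MW.S_CuspForm_intLattice_fg.W3WsD.qCoeff_add, coefFun_spec,
      coefFun_spec]
    push_cast
    rfl
  map_smul' c f := by
    apply coefFun_eq_of
    rw [Submodule.coe_smul, P2MW.S_CuspForm_intLattice_fg.W3WsD.qCoeff_zsmul, coefFun_spec]
    simp

@[simp] lemma coefLin_apply (f : CuspForm.intLattice N k) (n : ℕ) :
    coefLin N k n f = coefFun f n := rfl

lemma coefLin_spec (f : CuspForm.intLattice N k) (n : ℕ) :
    qCoeff (f : CuspForm (Gamma0 N) k) n = (coefLin N k n f : ℂ) := coefFun_spec f n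

lemma qCoeff_zero_cuspForm (f : CuspForm (Gamma0 N) k) : qCoeff f 0 = 0 :=
  CuspFormClass.qExpansion_coeff_zero f one_pos (CongruenceSubgroup.one_mem_strictPeriods_Gamma0 N)

/-- a cusp form all of whose higher coefficients vanish is zero -/
lemma cuspForm_eq_zero_of_qCoeff (f : CuspForm (Gamma0 N) k)
    (h : ∀ n, 1 ≤ n → qCoeff f n = 0) : f = 0 := by
  have hΓ := CongruenceSubgroup.one_mem_strictPeriods_Gamma0 N
  have hall : ∀ n, qCoeff f n = 0 := by
    intro n
    rcases Nat.eq_zero_or_pos n with rfl | hn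
    · exact qCoeff_zero_cuspForm f
    · exact h n hn
  have : Fact (IsCusp OnePoint.infty
      (Subgroup.map (Matrix.SpecialLinearGroup.mapGL ℝ) (Gamma0 N))) :=
    ⟨Subgroup.isCusp_of_mem_strictPeriods one_pos hΓ⟩
  ext τ
  have hs := ModularForm.hasSum_qExpansion f one_pos hΓ τ
  have h0 : (fun m => (qExpansion 1 f).coeff m * Function.Periodic.qParam 1 τ ^ m) = fun _ => 0 := by
    funext m
    have := hall m
    unfold qCoeff at this
    rw [this, zero_mul]
  rw [h0] at hs
  rw [zero_apply]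
  exact hs.unique hasSum_zero

lemma eq_zero_of_coefLin (f : CuspForm.intLattice N k)
    (h : ∀ n, 1 ≤ n → coefLin N k n f = 0) : f = 0 := by
  apply Subtype.ext
  rw [Submodule.coe_zero]
  apply cuspForm_eq_zero_of_qCoeff
  intro n hn
  rw [coefLin_spec, h n hn, Int.cast_zero]

/-- saturation of the integral lattice -/
lemma exists_eq_smul_of_dvd (d : ℕ) (hd : 1 ≤ d) (f : CuspForm.intLattice N k)
    (h : ∀ n, 1 ≤ n → (d : ℤ) ∣ coefLin N k n f) :
    ∃ g : CuspForm.intLattice N k, f = (d : ℤ) • g := by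
  have hΓ := CongruenceSubgroup.one_mem_strictPeriods_Gamma0 N
  have hd0 : (d : ℂ) ≠ 0 := by exact_mod_cast (by omega : d ≠ 0)
  set g₀ : CuspForm (Gamma0 N) k := ((d : ℂ)⁻¹) • (f : CuspForm (Gamma0 N) k) with hg₀
  have hcoe : (⇑g₀ : ℍ → ℂ) = ((d : ℂ)⁻¹) • ⇑(f : CuspForm (Gamma0 N) k) := by
    ext τ
    simp [hg₀]
  have hq : ∀ n, qCoeff g₀ n = (d : ℂ)⁻¹ * qCoeff (f : CuspForm (Gamma0 N) k) n := by
    intro n
    unfold qCoeff
    rw [hcoe, ModularForm.qExpansion_smul one_pos hΓ]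
    simp
  have hg₀mem : g₀ ∈ CuspForm.intLattice N k := by
    rw [mem_intLattice_iff']
    intro n
    rcases Nat.eq_zero_or_pos n with rfl | hn
    · exact ⟨0, by rw [qCoeff_zero_cuspForm]; simp⟩
    · obtain ⟨u, hu⟩ := h n hn
      refine ⟨u, ?_⟩
      rw [hq, coefLin_spec, hu]
      push_cast
      field_simp
  refine ⟨⟨g₀, hg₀mem⟩, Subtype.ext ?_⟩
  rw [Submodule.coe_smul]
  show (f : CuspForm (Gamma0 N) k) = (d : ℤ) • g₀
  rw [hg₀]
  ext τ
  simp
  field_simp

end

end Fermat.Agent.S16.H728
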