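import Mathlib
import Fermat.Agent.S16.Defs

/-!
# S16 / WP ALG (helper728): Hecke recursion for `sigmaP p` (divisor sums prime to `p`)
-/

set_option autoImplicit false

namespace Fermat.Agent.S16.H728

open Finset

lemma sigmaP_one (p : ℕ) (hp : 2 ≤ p) : sigmaP p 1 = 1 := by
  unfold sigmaP
  rw [Nat.divisors_one, Finset.filter_singleton, if_pos, Finset.sum_singleton]
  intro h
  have := Nat.le_of_dvd one_pos h
  omega

/-- `σ'(n p) = σ'(n)`. -/
lemma sigmaP_mul_self (p : ℕ) (hp : p.Prime) (n : ℕ) (hn : 1 ≤ n) :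
    sigmaP p (n * p) = sigmaP p n := by
  unfold sigmaP
  congr 1
  ext d
  simp only [Finset.mem_filter, Nat.mem_divisors]
  constructor
  · rintro ⟨⟨h1, -⟩, h2⟩
    refine ⟨⟨?_, by omega⟩, h2⟩
    have hcop : Nat.Coprime d p := (Nat.Coprime.symm ((Nat.Prime.coprime_iff_not_dvd hp).mpr h2))
    exact hcop.dvd_of_dvd_mul_right h1
  · rintro ⟨⟨h1, -⟩, h2⟩
    exact ⟨⟨h1.mul_right p, Nat.mul_ne_zero (by omega) hp.ne_zero⟩, h2⟩

/-- `σ'(n ℓ) + [ℓ ∣ n] ℓ σ'(n / ℓ) = (1 + ℓ) σ'(n)` for primes `ℓ ≠ p`. -/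
lemma sigmaP_mul_prime (p : ℕ) (hp : p.Prime) (ℓ : ℕ) (hℓ : ℓ.Prime) (hℓp : ℓ ≠ p)
    (n : ℕ) (hn : 1 ≤ n) :
    sigmaP p (n * ℓ) + (if ℓ ∣ n then ℓ * sigmaP p (n / ℓ) else 0) = (1 + ℓ) * sigmaP p n := by
  have hn0 : n ≠ 0 := by omega
  have hpl : ¬ p ∣ ℓ := fun h => hℓp ((Nat.prime_dvd_prime_iff_eq hp hℓ).mp h).symm
  set B := n.divisors.filter (fun d => ¬ p ∣ d) with hB
  set B' := B.image (fun d => d * ℓ) with hB'
  have hinj : Function.Injective (fun d : ℕ => d * ℓ) := fun a b h =>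
    Nat.eq_of_mul_eq_mul_right hℓ.pos h
  -- the divisors of `n ℓ` prime to `p`
  have hA : (n * ℓ).divisors.filter (fun d => ¬ p ∣ d) = B ∪ B' := by
    ext d
    simp only [hB, hB', Finset.mem_filter, Nat.mem_divisors, Finset.mem_union, Finset.mem_image]
    constructor
    · rintro ⟨⟨h1, -⟩, h2⟩
      by_cases hd : ℓ ∣ d
      · right
        obtain ⟨d', rfl⟩ := hd
        refine ⟨d', ⟨⟨?_, hn0⟩, fun h => h2 (h.mul_left ℓ)⟩, mul_comm _ _⟩
        rw [mul_comm n ℓ] at h1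
        exact Nat.dvd_of_mul_dvd_mul_left hℓ.pos h1
      · left
        have hcop : Nat.Coprime d ℓ := (Nat.Coprime.symm ((Nat.Prime.coprime_iff_not_dvd hℓ).mpr hd))
        exact ⟨⟨hcop.dvd_of_dvd_mul_right h1, hn0⟩, h2⟩
    · rintro (⟨⟨h1, -⟩, h2⟩ | ⟨d', ⟨⟨h1, -⟩, h2⟩, rfl⟩)
      · exact ⟨⟨h1.mul_right ℓ, Nat.mul_ne_zero hn0 hℓ.ne_zero⟩, h2⟩
      · refine ⟨⟨Nat.mul_dvd_mul_right h1 ℓ, Nat.mul_ne_zero hn0 hℓ.ne_zero⟩, fun h => ?_⟩
        rcases (Nat.Prime.dvd_mul hp).mp h with h | h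
        · exact h2 h
        · exact hpl h
  have hsumB' : ∑ d ∈ B', d = ℓ * ∑ d ∈ B, d := by
    rw [hB', Finset.sum_image (fun a _ b _ h => hinj h), Finset.mul_sum]
    exact Finset.sum_congr rfl fun d _ => mul_comm _ _
  have hinter : ∑ d ∈ B ∩ B', d = if ℓ ∣ n then ℓ * sigmaP p (n / ℓ) else 0 := by
    by_cases hdiv : ℓ ∣ n
    · rw [if_pos hdiv]
      have hne : n / ℓ ≠ 0 := by
        have := Nat.div_pos (Nat.le_of_dvd (by omega) hdiv) hℓ.pos
        omega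
      have : B ∩ B' = ((n / ℓ).divisors.filter (fun d => ¬ p ∣ d)).image (fun d => d * ℓ) := by
        ext d
        simp only [hB, hB', Finset.mem_inter, Finset.mem_filter, Nat.mem_divisors,
          Finset.mem_image]
        constructor
        · rintro ⟨⟨⟨h1, -⟩, h2⟩, d', ⟨⟨h3, -⟩, h4⟩, rfl⟩
          refine ⟨d', ⟨⟨?_, hne⟩, h4⟩, rfl⟩
          exact (Nat.dvd_div_iff_mul_dvd hdiv).mpr (by rwa [mul_comm] at h1)
        · rintro ⟨d', ⟨⟨h3, -⟩, h4⟩, rfl⟩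
          have h5 : d' * ℓ ∣ n := by
            have := (Nat.dvd_div_iff_mul_dvd hdiv).mp h3
            rwa [mul_comm] at this
          refine ⟨⟨⟨h5, hn0⟩, fun h => ?_⟩, d', ⟨⟨(dvd_of_mul_right_dvd h5), hn0⟩, h4⟩, rfl⟩
          rcases (Nat.Prime.dvd_mul hp).mp h with h | h
          · exact h4 h
          · exact hpl h
      rw [this, Finset.sum_image (fun a _ b _ h => hinj h)]
      unfold sigmaP
      rw [Finset.mul_sum]
      exact Finset.sum_congr rfl fun d _ => mul_comm _ _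
    · rw [if_neg hdiv]
      have : B ∩ B' = ∅ := by
        rw [Finset.eq_empty_iff_forall_notMem]
        intro d hd
        simp only [hB, hB', Finset.mem_inter, Finset.mem_filter, Nat.mem_divisors,
          Finset.mem_image] at hd
        obtain ⟨⟨⟨h1, -⟩, -⟩, d', -, rfl⟩ := hd
        exact hdiv (dvd_of_mul_left_dvd h1)
      rw [this, Finset.sum_empty]
  have hmain := Finset.sum_union_inter (s₁ := B) (s₂ := B') (f := fun d => d)
  have e1 : sigmaP p (n * ℓ) = ∑ d ∈ B ∪ B', d := by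
    unfold sigmaP
    rw [hA]
  have e2 : sigmaP p n = ∑ d ∈ B, d := rfl
  rw [e1, e2, ← hinter]
  rw [hsumB'] at hmain
  rw [hmain]
  ring

end Fermat.Agent.S16.H728
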