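import Fermat.Prelude.Def_CuspForm_HeckeLocal
import Fermat.Prelude.Def_CuspForm_HeckeEvalForms
import Fermat.Prelude.Def_HeckeGalois_EichlerShimura
import Fermat.Prelude.Def_ModularCurve_ModularUnit
import Fermat.Prelude.Thm_ModularFormClass_qCoeff_heckeT
import Fermat.Prelude.Thm_ModularFormClass_qCoeff_heckeU
import Fermat.Agent.S16.H728.AbstractAlg
import Fermat.Agent.S16.H728.Lattice
import Fermat.Agent.S16.H728.Sigma

/-!
# S16 / WP ALG (helper728): the Hecke data of level `N` (Prelude objects)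

`heckeDataOf N : HeckeData ↥(heckeLatticeAlgebra N ∅) ↥(intLattice N 2)`.
-/

set_option autoImplicit false

namespace Fermat.Agent.S16.H728

open CuspForm ModularCurve CongruenceSubgroup ModularFormClass

noncomputable section

variable (N : ℕ) [NeZero N]

/-- `heckeEvalForms` is onto the Hecke algebra. -/
theorem heckeEvalForms_surjective (k : ℤ) : Function.Surjective (heckeEvalForms N k) := by
  rintro ⟨x, hx⟩
  refine Algebra.adjoin_induction
    (p := fun y hy => ∃ P, heckeEvalForms N k P = (⟨y, hy⟩ : heckeAlgebra N k ∅)) ?_ ?_ ?_ ?_ hx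
  · rintro y (⟨ℓ, hℓ, hℓN, -, rfl⟩ | ⟨q, hqN, hq, -, rfl⟩)
    · refine ⟨MvPolynomial.X ⟨ℓ, hℓ⟩, ?_⟩
      have := heckeEvalForms_heckeGen_of_not_dvd (N := N) (k := k) (ℓ := ⟨ℓ, hℓ⟩) hℓN
      exact this
    · refine ⟨MvPolynomial.X ⟨q, hq⟩, ?_⟩
      have := heckeEvalForms_heckeGen_of_dvd (N := N) (k := k) (q := ⟨q, hq⟩) hqN
      exact this
  · intro r
    exact ⟨MvPolynomial.C r, by rw [heckeEvalForms_C]; rfl⟩
  · rintro a b ha hb ⟨P, hP⟩ ⟨Q, hQ⟩
    exact ⟨P + Q, by rw [map_add, hP, hQ]; rfl⟩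
  · rintro a b ha hb ⟨P, hP⟩ ⟨Q, hQ⟩
    exact ⟨P * Q, by rw [map_mul, hP, hQ]; rfl⟩

/-- the presentation `ℤ[X_ℓ] → T`. -/
def phiOf : MvPolynomial Nat.Primes ℤ →+* ↥(heckeLatticeAlgebra N ∅) :=
  (latticeRestrictHom N ∅).toRingHom.comp (heckeEvalForms N 2)

theorem phiOf_surjective : Function.Surjective (phiOf N) :=
  (latticeRestrictHom_surjective N ∅).comp (heckeEvalForms_surjective N 2)

/-- the underlying cusp form of `X_ℓ • f`. -/
lemma coe_phiOf_X_apply (ℓ : Nat.Primes) (f : ↥(CuspForm.intLattice N 2)) :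
    ((((phiOf N (MvPolynomial.X ℓ) : ↥(heckeLatticeAlgebra N ∅)) :
        Module.End ℤ ↥(CuspForm.intLattice N 2)) f : ↥(CuspForm.intLattice N 2)) :
      CuspForm (Gamma0 N) 2) =
    ((heckeFormsGen N 2 ℓ : heckeAlgebra N 2 ∅) :
      Module.End ℂ (CuspForm (Gamma0 N) 2)) (f : CuspForm (Gamma0 N) 2) := by
  have h := heckeEvalForms_heckeGen N 2 ℓ
  unfold heckeGen at h
  show ((((latticeRestrictHom N ∅) (heckeEvalForms N 2 (MvPolynomial.X ℓ)) :
        ↥(heckeLatticeAlgebra N ∅)) :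
        Module.End ℤ ↥(CuspForm.intLattice N 2)) f : CuspForm (Gamma0 N) 2) = _
  rw [h]
  rfl

/-- weights of the Hecke recursion at level `N` (weight 2). -/
def wOf : Nat.Primes → ℤ := fun ℓ => if (ℓ : ℕ) ∣ N then 0 else ((ℓ : ℕ) : ℤ)

lemma coefLin_phiOf_X (ℓ : Nat.Primes) (f : ↥(CuspForm.intLattice N 2)) (n : ℕ) :
    coefLin N 2 n (((phiOf N (MvPolynomial.X ℓ) : ↥(heckeLatticeAlgebra N ∅)) :
        Module.End ℤ ↥(CuspForm.intLattice N 2)) f) =
      coefLin N 2 (n * ℓ) f +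
        (if (ℓ : ℕ) ∣ n then wOf N ℓ * coefLin N 2 (n / ℓ) f else 0) := by
  have hΓ := CongruenceSubgroup.one_mem_strictPeriods_Gamma0 N
  rw [coefLin_apply]
  apply coefFun_eq_of
  rw [coe_phiOf_X_apply]
  by_cases hdiv : (ℓ : ℕ) ∣ N
  · rw [heckeFormsGen_of_dvd hdiv, heckeAlgebra.coe_U, CuspForm.coe_heckeULin_apply,
      ModularFormClass.qCoeff_heckeU (f : CuspForm (Gamma0 N) 2) hΓ ℓ.2.ne_zero n,
      ModularForm.coeffHeckeU_apply, coefLin_spec]
    unfold wOf
    rw [if_pos hdiv]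
    simp
  · rw [heckeFormsGen_of_not_dvd hdiv, heckeAlgebra.coe_T, CuspForm.coe_heckeTLin_apply,
      ModularFormClass.qCoeff_heckeT (f : CuspForm (Gamma0 N) 2) hΓ ℓ.2.ne_zero n,
      ModularForm.coeffHeckeT_apply, coefLin_spec]
    unfold wOf
    rw [if_neg hdiv]
    by_cases hn : (ℓ : ℕ) ∣ n
    · rw [if_pos hn, if_pos hn, coefLin_spec]
      push_cast
      norm_num
    · rw [if_neg hn, if_neg hn]
      simp

/-- The Hecke data of level `N`. -/
def heckeDataOf : HeckeData ↥(heckeLatticeAlgebra N ∅) ↥(CuspForm.intLattice N 2) where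
  ι := (heckeLatticeAlgebra N ∅).val.toRingHom
  ι_inj := Subtype.val_injective
  φ := phiOf N
  φ_surj := phiOf_surjective N
  coef := coefLin N 2
  w := wOf N
  coef_gen := fun ℓ f n => coefLin_phiOf_X N ℓ f n
  eq_zero := eq_zero_of_coefLin
  sat := fun d f hd h => exists_eq_smul_of_dvd d hd f h

/-- evaluation at the Eisenstein system, as a ring homomorphism -/
def evOf : MvPolynomial Nat.Primes ℤ →+* ℤ :=
  MvPolynomial.eval₂Hom (RingHom.id ℤ) (eisensteinSystem N)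

omit [NeZero N] in
lemma evOf_X (ℓ : Nat.Primes) : evOf N (MvPolynomial.X ℓ) = eisensteinSystem N ℓ := by
  unfold evOf
  rw [MvPolynomial.eval₂Hom_X']

omit [NeZero N] in
lemma eisensteinIdeal_eq_ker : eisensteinIdeal N = RingHom.ker (evOf N) := by
  ext P
  rw [eisensteinIdeal, mem_eigenIdeal_iff, RingHom.mem_ker]
  have : (MvPolynomial.aeval (R := ℤ) (eisensteinSystem N)) P = evOf N P := by
    unfold evOf
    rw [MvPolynomial.aeval_def, MvPolynomial.coe_eval₂Hom]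
    congr 1
  rw [this]

lemma J_eq : (heckeDataOf N).J (evOf N) =
    Ideal.map ((latticeRestrictHom N ∅).toRingHom.comp (heckeEvalForms N 2))
      (eisensteinIdeal N) := by
  rw [eisensteinIdeal_eq_ker]
  rfl

end

end Fermat.Agent.S16.H728
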