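import Fermat.Agent.S16.Interface
import Fermat.Agent.S16.H556.Basic
import Fermat.Agent.S16.H728.Inst

/-!
# S16 / WP ALG (helper728): `result_of_forms` in the exact skeleton shape

`Fermat.Agent.S16.H728.result_of_forms` is, verbatim, the statement `Skel.result_of_forms` of
`origin/helper556:Fermat/Agent/S16/Skeleton.lean` (with the interface predicates of
`Fermat/Agent/S16/Interface.lean`): the frozen S16 goal for `p ≥ 5` from
`HasEis p`, `CuspCrit p`, `UpperBound p`, `LowerBound p`.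
-/

set_option autoImplicit false

namespace Fermat.Agent.S16.H728

open UpperHalfPlane ModularForm CongruenceSubgroup MatrixGroups ModularFormClass
open CuspForm ModularCurve
open Fermat.Agent.S20 (MF SF)

noncomputable section

variable (p : ℕ)

/-- the Hecke recursion of `σ'` in the shape of the abstract theorem -/
lemma sigma_rec (hp : p.Prime) (ℓ : Nat.Primes) (n : ℕ) (hn : 1 ≤ n) :
    ((sigmaP p (n * ℓ) : ℕ) : ℤ) +
        (if (ℓ : ℕ) ∣ n then wOf p ℓ * ((sigmaP p (n / ℓ) : ℕ) : ℤ) else 0)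
      = eisensteinSystem p ℓ * ((sigmaP p n : ℕ) : ℤ) := by
  by_cases hdiv : (ℓ : ℕ) ∣ p
  · have hℓp : (ℓ : ℕ) = p := (Nat.prime_dvd_prime_iff_eq ℓ.2 hp).mp hdiv
    have hs : sigmaP p (n * (ℓ : ℕ)) = sigmaP p n := by
      rw [hℓp]; exact sigmaP_mul_self p hp n hn
    rw [eisensteinSystem_of_dvd hdiv]
    unfold wOf
    rw [if_pos hdiv, hs]
    split_ifs <;> simp
  · have hℓp : (ℓ : ℕ) ≠ p := fun h => hdiv (h ▸ dvd_rfl)
    rw [eisensteinSystem_of_not_dvd hdiv]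
    unfold wOf
    rw [if_neg hdiv]
    have h : sigmaP p (n * (ℓ : ℕ)) +
        (if (ℓ : ℕ) ∣ n then (ℓ : ℕ) * sigmaP p (n / (ℓ : ℕ)) else 0)
          = (1 + (ℓ : ℕ)) * sigmaP p n :=
      sigmaP_mul_prime p hp (ℓ : ℕ) ℓ.2 hℓp n hn
    by_cases hn' : (ℓ : ℕ) ∣ n
    · rw [if_pos hn'] at h ⊢
      have h' : ((sigmaP p (n * (ℓ : ℕ)) : ℕ) : ℤ) +
          ((ℓ : ℕ) : ℤ) * ((sigmaP p (n / (ℓ : ℕ)) : ℕ) : ℤ)
            = (1 + ((ℓ : ℕ) : ℤ)) * ((sigmaP p n : ℕ) : ℤ) := by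
        exact_mod_cast h
      exact h'
    · rw [if_neg hn'] at h ⊢
      have h' : ((sigmaP p (n * (ℓ : ℕ)) : ℕ) : ℤ) + 0
            = (1 + ((ℓ : ℕ) : ℤ)) * ((sigmaP p n : ℕ) : ℤ) := by
        exact_mod_cast h
      exact h'

lemma eisensteinNumerator_mul_gcd (_hp1 : 1 ≤ p) :
    eisensteinNumerator p * Nat.gcd (p - 1) 12 = p - 1 :=
  Nat.div_mul_cancel (Nat.gcd_dvd_left _ _)

lemma gcd_pos' : 0 < Nat.gcd (p - 1) 12 := Nat.gcd_pos_of_pos_right _ (by norm_num)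

lemma eisensteinNumerator_pos (hp2 : 2 ≤ p) : 1 ≤ eisensteinNumerator p := by
  have h := eisensteinNumerator_mul_gcd p (by omega)
  rcases Nat.eq_zero_or_pos (eisensteinNumerator p) with h0 | h0
  · rw [h0, zero_mul] at h; omega
  · exact h0

variable [NeZero p]

/-- (LB') -/
lemma lb_prime (hp2 : 2 ≤ p) (hE : HasEis p) (hC : CuspCrit p) (hLB : LowerBound p) :
    ∃ h : ↥(CuspForm.intLattice p 2), ∃ c : ℤ,
      IsCoprime c ((eisensteinNumerator p : ℕ) : ℤ) ∧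
      ∀ k, 1 ≤ k → ((eisensteinNumerator p : ℕ) : ℤ) ∣
        coefLin p 2 k h - c * ((sigmaP p k : ℕ) : ℤ) := by
  obtain ⟨e, heMF, he0, hek⟩ := hE
  obtain ⟨G, hGMF, hG0, hGint⟩ := hLB
  set ν := Nat.gcd (p - 1) 12 with hν
  set n := eisensteinNumerator p with hn
  set c := 12 / ν with hc
  have hnν : n * ν = p - 1 := eisensteinNumerator_mul_gcd p (by omega)
  have hcν : c * ν = 12 := Nat.div_mul_cancel (Nat.gcd_dvd_right _ _)
  have hνpos : 0 < ν := gcd_pos' p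
  have hcn : c * (p - 1) = 12 * n := by
    rw [← hnν, ← hcν]; ring
  have hcnC : (c : ℂ) * ((p : ℂ) - 1) = 12 * (n : ℂ) := by
    have h1 : ((p - 1 : ℕ) : ℂ) = (p : ℂ) - 1 := by
      rw [Nat.cast_sub (by omega)]; simp
    rw [← h1]
    exact_mod_cast hcn
  set h₀ : ℍ → ℂ := (c : ℂ) • e - (n : ℂ) • G with hh₀
  have hceMF : (c : ℂ) • e ∈ MF (Gamma0 p) 2 := (MF (Gamma0 p) 2).smul_mem _ heMF
  have hnGMF : (n : ℂ) • G ∈ MF (Gamma0 p) 2 := (MF (Gamma0 p) 2).smul_mem _ hGMF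
  have hh₀MF : h₀ ∈ MF (Gamma0 p) 2 := (MF (Gamma0 p) 2).sub_mem hceMF hnGMF
  have hq : ∀ k, qCoeff h₀ k = (c : ℂ) * qCoeff e k - (n : ℂ) * qCoeff G k := by
    intro k
    rw [hh₀, H556.qCoeff_sub hceMF hnGMF, H556.qCoeff_smul heMF, H556.qCoeff_smul hGMF]
  have h0 : qCoeff h₀ 0 = 0 := by
    rw [hq, he0, hG0]
    linear_combination (1 / 24 : ℂ) * hcnC
  obtain ⟨F, hF⟩ := Fermat.Agent.S20.C0h516.mem_SF_iff_exists.mp (hC h₀ hh₀MF h0)
  choose! m hm using hGint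
  have hFk : ∀ k, 1 ≤ k →
      qCoeff F k = (((c : ℤ) * ((sigmaP p k : ℕ) : ℤ) - (n : ℤ) * m k : ℤ) : ℂ) := by
    intro k hk
    rw [hF, hq, hek k hk, hm k hk]
    push_cast
    ring
  have hFmem : F ∈ CuspForm.intLattice p 2 := by
    rw [mem_intLattice_iff']
    intro k
    rcases Nat.eq_zero_or_pos k with rfl | hk
    · exact ⟨0, by rw [hF, h0]; simp⟩
    · exact ⟨_, hFk k hk⟩
  refine ⟨⟨F, hFmem⟩, (c : ℤ), ?_, fun k hk => ?_⟩
  · rw [Nat.isCoprime_iff_coprime]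
    exact (Nat.coprime_div_gcd_div_gcd hνpos).symm
  · have : coefLin p 2 k ⟨F, hFmem⟩ = (c : ℤ) * ((sigmaP p k : ℕ) : ℤ) - (n : ℤ) * m k :=
      coefFun_eq_of _ _ _ (hFk k hk)
    rw [this]
    exact ⟨-m k, by ring⟩

/-- (UB') -/
lemma ub_prime (hp2 : 2 ≤ p) (hE : HasEis p) (hUB : UpperBound p) :
    ∀ m : ℕ, (∃ f : ↥(CuspForm.intLattice p 2), ∀ k, 1 ≤ k →
      (m : ℤ) ∣ coefLin p 2 k f - ((sigmaP p k : ℕ) : ℤ)) → m ∣ eisensteinNumerator p := by
  rintro m ⟨f, hf⟩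
  obtain ⟨e, heMF, he0, hek⟩ := hE
  set ν := Nat.gcd (p - 1) 12 with hν
  set n := eisensteinNumerator p with hn
  have hnν : n * ν = p - 1 := eisensteinNumerator_mul_gcd p (by omega)
  have hνpos : 0 < ν := gcd_pos' p
  have hnpos : 1 ≤ n := eisensteinNumerator_pos p hp2
  -- the scaling factor
  set M : ℕ := if m = 0 then p else m with hM
  have hMpos : 1 ≤ M := by
    rw [hM]; split_ifs with h0 <;> omega
  have hM0 : (M : ℂ) ≠ 0 := by exact_mod_cast (by omega : M ≠ 0)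
  have hfMF : (⇑(f : CuspForm (Gamma0 p) 2) : ℍ → ℂ) ∈ MF (Gamma0 p) 2 :=
    Fermat.Agent.S20.SF_le_MF _ _ (Fermat.Agent.S20.C0h516.coe_mem_SF (f : CuspForm (Gamma0 p) 2))
  have hdMF : e - ⇑(f : CuspForm (Gamma0 p) 2) ∈ MF (Gamma0 p) 2 :=
    (MF (Gamma0 p) 2).sub_mem heMF hfMF
  set G : ℍ → ℂ := ((M : ℂ)⁻¹) • (e - ⇑(f : CuspForm (Gamma0 p) 2)) with hG
  have hGMF : G ∈ MF (Gamma0 p) 2 := (MF (Gamma0 p) 2).smul_mem _ hdMF
  have hq : ∀ k, qCoeff G k =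
      (M : ℂ)⁻¹ * (qCoeff e k - qCoeff (f : CuspForm (Gamma0 p) 2) k) := by
    intro k
    rw [hG, H556.qCoeff_smul hdMF, H556.qCoeff_sub heMF hfMF]
  have hint : IntFrom1 G := by
    intro k hk
    obtain ⟨u, hu⟩ := hf k hk
    have hu' : (coefLin p 2 k f : ℂ) - ((sigmaP p k : ℕ) : ℂ) = (m : ℂ) * (u : ℂ) := by
      exact_mod_cast hu
    by_cases hm0 : m = 0
    · refine ⟨0, ?_⟩
      rw [hq, hek k hk, coefLin_spec]
      rw [hm0] at hu'
      have : (coefLin p 2 k f : ℂ) = ((sigmaP p k : ℕ) : ℂ) := by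
        linear_combination hu'
      rw [this]
      simp
    · refine ⟨-u, ?_⟩
      have hMm : M = m := by rw [hM, if_neg hm0]
      rw [hq, hek k hk, coefLin_spec, hMm]
      have hm0' : (m : ℂ) ≠ 0 := by exact_mod_cast hm0
      field_simp
      push_cast
      linear_combination -hu'
  obtain ⟨z, hz⟩ := hUB G hGMF hint
  rw [hq, he0, qCoeff_zero_cuspForm, sub_zero] at hz
  have h1 : ((p - 1 : ℕ) : ℂ) = (p : ℂ) - 1 := by
    rw [Nat.cast_sub (by omega)]; simp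
  have hz' : ((p - 1 : ℕ) : ℂ) = (M : ℂ) * ((ν : ℂ) * (z : ℂ)) := by
    rw [h1]
    field_simp at hz
    linear_combination hz
  have hzZ : ((p - 1 : ℕ) : ℤ) = (M : ℤ) * ((ν : ℤ) * z) := by exact_mod_cast hz'
  have hnM : (n : ℤ) = (M : ℤ) * z := by
    have hνZ : (ν : ℤ) ≠ 0 := by exact_mod_cast hνpos.ne'
    have : (n : ℤ) * (ν : ℤ) = ((M : ℤ) * z) * ν := by
      rw [← Nat.cast_mul, hnν, hzZ]; ring
    exact mul_right_cancel₀ hνZ this
  by_cases hm0 : m = 0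
  · exfalso
    have hMp : M = p := by rw [hM, if_pos hm0]
    rw [hMp] at hnM
    have hpn : p ∣ n := Int.natCast_dvd_natCast.mp ⟨z, hnM⟩
    have hnp : n ∣ p - 1 := eisensteinNumerator_dvd p
    have := Nat.le_of_dvd (by omega) (hpn.trans hnp)
    omega
  · have hMm : M = m := by rw [hM, if_neg hm0]
    rw [hMm] at hnM
    exact Int.natCast_dvd_natCast.mp ⟨z, hnM⟩

end

/-- **WP ALG (skeleton shape).** The frozen S16 statement for `p ≥ 5` from the four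
modular-forms inputs. -/
theorem result_of_forms (p : ℕ) [Fact p.Prime] (hp5 : 5 ≤ p)
    (hE : HasEis p) (hC : CuspCrit p) (hUB : UpperBound p) (hLB : LowerBound p) :
    Nat.card (↥(CuspForm.heckeLatticeAlgebra p ∅) ⧸
        Ideal.map ((CuspForm.latticeRestrictHom p ∅).toRingHom.comp (CuspForm.heckeEvalForms p 2))
          (ModularCurve.eisensteinIdeal p)) =
      ModularCurve.eisensteinNumerator p := by
  have hp : p.Prime := Fact.out
  have hp2 : 2 ≤ p := hp.two_le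
  have hfin := CuspForm.intLattice.moduleFinite p
  have hfree := CuspForm.intLattice.moduleFree p
  rw [← J_eq p]
  exact (heckeDataOf p).card_quotient (evOf p) (eisensteinSystem p) (evOf_X p)
    (fun k => ((sigmaP p k : ℕ) : ℤ)) (by rw [sigmaP_one p hp2]; rfl) (sigma_rec p hp)
    (eisensteinNumerator p) (eisensteinNumerator_pos p hp2)
    (lb_prime p hp2 hE hC hLB) (ub_prime p hp2 hE hUB)

end Fermat.Agent.S16.H728
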